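import Fermat.Agent.MorseSard.Pieces
import Mathlib.MeasureTheory.Measure.Prod

/-!
# The theorem of Morse and Sard

Induction on the dimension of the source: a nonzero differential gives slices and Fubini, a nonzero
higher derivative puts the points on a hypersurface, and the flat points have small dimension.
-/

set_option autoImplicit false

noncomputable section

open Set Filter Topology MeasureTheory Module
open scoped ContDiff

namespace FA.MorseSard

universe u v

/-- **The theorem of Morse and Sard.** -/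
theorem image_crit_null : ∀ (d : ℕ) {E : Type u} [NormedAddCommGroup E] [NormedSpace ℝ E]
    [FiniteDimensional ℝ E], finrank ℝ E = d → ∀ {F : Type v} [NormedAddCommGroup F]
    [NormedSpace ℝ F] [FiniteDimensional ℝ F] [MeasurableSpace F] [BorelSpace F] (μ : Measure F)
    [μ.IsAddHaarMeasure] {f : E → F} {U : Set E}, IsOpen U → ContDiffOn ℝ ∞ f U →
    μ (f '' crit f U) = 0 := by
  intro d
  induction d using Nat.strong_induction_on with
  | _ d ih =>
  intro E _ _ _ hd F _ _ _ _ _ μ _ f U hU hf
  rcases subsingleton_or_nontrivial F with hF | hF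
  · have : crit f U = ∅ := eq_empty_of_forall_notMem fun x hx =>
      hx.2 fun y => ⟨0, Subsingleton.elim _ _⟩
    simp [this]
  have hsmooth : ∀ z ∈ U, ContDiffAt ℝ ∞ f z := fun z hz => hf.contDiffAt (hU.mem_nhds hz)
  -- a nonzero differential
  have hA : μ (f '' {x ∈ crit f U | fderiv ℝ f x ≠ 0}) = 0 := by
    refine image_null_of_local fun x hx => ?_
    obtain ⟨u, hu⟩ : ∃ u, fderiv ℝ f x u ≠ 0 := by
      by_contra hc
      simp only [not_exists, not_not] at hc
      exact hx.2 (ContinuousLinearMap.ext fun u => by simp [hc u])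
    obtain ⟨q, hq⟩ := SeparatingDual.exists_eq_one (R := ℝ) hu
    set y₀ := fderiv ℝ f x u
    set F' : Submodule ℝ F := LinearMap.ker (q : F →ₗ[ℝ] ℝ)
    let P : F →L[ℝ] F' := LinearMap.toContinuousLinearMap
      (LinearMap.codRestrict F' (LinearMap.id - (q : F →ₗ[ℝ] ℝ).smulRight y₀) fun z => by
        simp [F', hq])
    have hP : ∀ z, (P z : F) = z - q z • y₀ := fun z => rfl
    let e : F ≃L[ℝ] ℝ × F' := LinearEquiv.toContinuousLinearEquiv
      { toLinearMap := (q.prod P : F →L[ℝ] ℝ × F')
        invFun := fun y => (y.2 : F) + y.1 • y₀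
        left_inv := fun z => by
          show (P z : F) + q z • y₀ = z
          rw [hP, sub_add_cancel]
        right_inv := fun y => by
          have h0 : q (y.2 : F) = 0 := LinearMap.mem_ker.1 y.2.2
          refine Prod.ext ?_ (Subtype.ext ?_)
          · show q ((y.2 : F) + y.1 • y₀) = y.1
            simp [h0, hq]
          · show ((P ((y.2 : F) + y.1 • y₀)) : F) = y.2
            simp [hP, h0, hq] }
    obtain ⟨W, φ, hW, hxφ, hφU, hφw, hφs⟩ := exists_chart hU
      (q.contDiff.comp_contDiffOn hf) hx.1.1 (w := fun z => q (f z)) (by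
        intro h0
        have h := congrArg (fun A : E →L[ℝ] ℝ => A u) h0
        have hc : HasFDerivAt (fun z => q (f z)) (q.comp (fderiv ℝ f x)) x :=
          q.hasFDerivAt.comp x ((hsmooth x hx.1.1).differentiableAt (by simp)).hasFDerivAt
        simp [hc.fderiv, hq, y₀] at h)
    obtain ⟨K, hKs, hK, hKc⟩ := exists_compact_subset φ.open_source hxφ
    refine ⟨K, mem_interior_iff_mem_nhds.1 hK, measure_mono_null
      (image_mono (inter_subset_inter_left K (sep_subset _ _))) ?_⟩
    have hc := (isCompact_crit_inter hU hf hKs (hKc.trans hφU)).image_of_continuousOn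
      (hf.continuousOn.mono fun z hz => hz.1.1)
    set S := e '' (f '' (crit f U ∩ K))
    have hSm : MeasurableSet S := (hc.image e.continuous).isClosed.measurableSet
    have hac : μ.map e ≪ (Measure.addHaar : Measure ℝ).prod (Measure.addHaar : Measure F') :=
      Measure.absolutelyContinuous_isAddHaarMeasure _ _
    have hS : ((Measure.addHaar : Measure ℝ).prod (Measure.addHaar : Measure F')) S = 0 := by
      rw [Measure.measure_prod_null hSm]
      refine Eventually.of_forall fun t => measure_mono_null ?_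
        (ih _ (hd ▸ hW) (E := W) rfl (F := F') (Measure.addHaar : Measure F')
          (f := fun v => P (f (φ.symm (t, v)))) (U := Prod.mk t ⁻¹' φ.target)
          (φ.open_target.preimage (continuous_const.prodMk continuous_id))
          (P.contDiff.comp_contDiffOn ((hf.comp hφs fun y hy => hφU (φ.map_target hy)).comp
            (contDiff_const.prodMk contDiff_id).contDiffOn fun _ hv => hv)))
      rintro v' ⟨_, ⟨z, hz, rfl⟩, hev⟩
      have hzs : z ∈ φ.source := hKc hz.2
      have ht : t = q (f z) := (congrArg Prod.fst hev).symm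
      have hφz : (t, (φ z).2) = φ z := by rw [ht, ← hφw z hzs]
      have hsymm : φ.symm (t, (φ z).2) = z := by rw [hφz]; exact φ.left_inv hzs
      have hmem : (t, (φ z).2) ∈ φ.target := hφz ▸ φ.map_source hzs
      refine ⟨(φ z).2, ⟨hmem, fun hsurj => hz.1.2 ?_⟩, ?_⟩
      · set v := (φ z).2
        set M := fderiv ℝ (f ∘ φ.symm) (t, v)
        have hds : DifferentiableAt ℝ φ.symm (t, v) :=
          (hφs.contDiffAt (φ.open_target.mem_nhds hmem)).differentiableAt (by simp)
        have hdf : DifferentiableAt ℝ f (φ.symm (t, v)) :=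
          (hsmooth _ (hφU (φ.map_target hmem))).differentiableAt (by simp)
        have hdM : HasFDerivAt (f ∘ φ.symm) M (t, v) := (hdf.comp _ hds).hasFDerivAt
        have hqM : ∀ y, q (M y) = y.1 := fun y => by
          have h1 : HasFDerivAt (fun y => q (f (φ.symm y))) (q.comp M) (t, v) :=
            q.hasFDerivAt.comp (t, v) hdM
          have h2 : (fun y => q (f (φ.symm y))) =ᶠ[𝓝 (t, v)] Prod.fst := by
            filter_upwards [φ.open_target.mem_nhds hmem] with y hy
            rw [← hφw _ (φ.map_target hy), φ.right_inv hy]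
          exact congrFun (congrArg DFunLike.coe
            ((h1.congr_of_eventuallyEq h2.symm).unique hasFDerivAt_fst)) y
        have hg : fderiv ℝ (fun v => P (f (φ.symm (t, v)))) v =
            P.comp (M.comp (ContinuousLinearMap.inr ℝ ℝ W)) :=
          (P.hasFDerivAt.comp v (hdM.comp v (hasFDerivAt_prodMk_right t v))).fderiv
        rw [hg] at hsurj
        intro y
        have hy : q (y - q y • M (1, 0)) = 0 := by simp [hqM]
        obtain ⟨w, hw⟩ := hsurj ⟨_, LinearMap.mem_ker.2 hy⟩
        have hw' : (P (M (0, w)) : F) = y - q y • M (1, 0) := congrArg Subtype.val hw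
        rw [hP, hqM, zero_smul, sub_zero] at hw'
        refine ⟨fderiv ℝ φ.symm (t, v) ((q y • (1, 0)) + (0, w)), ?_⟩
        have hM : M = (fderiv ℝ f z).comp (fderiv ℝ φ.symm (t, v)) := by
          rw [← hsymm]
          exact fderiv_comp _ hdf hds
        show ((fderiv ℝ f z).comp (fderiv ℝ φ.symm (t, v))) _ = y
        rw [← hM, map_add, map_smul, hw', add_sub_cancel]
      · show P (f (φ.symm (t, (φ z).2))) = v'
        rw [hsymm]
        exact congrArg Prod.snd hev
    have h := hac hS
    rwa [Measure.map_apply e.continuous.measurable hSm,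
      preimage_image_eq _ e.injective] at h
  -- a nonzero higher derivative
  have hB : ∀ i, μ (f '' {x ∈ crit f U | fderiv ℝ f x = 0 ∧ iteratedFDeriv ℝ i f x = 0 ∧
      iteratedFDeriv ℝ (i + 1) f x ≠ 0}) = 0 := fun i => by
    refine image_null_of_local fun x hx => ?_
    obtain ⟨m, hm⟩ : ∃ m, iteratedFDeriv ℝ (i + 1) f x m ≠ 0 := by
      by_contra hc
      simp only [not_exists, not_not] at hc
      exact hx.2.2.2 (ContinuousMultilinearMap.ext fun m => by simp [hc m])
    obtain ⟨q, hq⟩ := SeparatingDual.exists_eq_one (R := ℝ) hm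
    set w : E → ℝ := fun z => q (iteratedFDeriv ℝ i f z (Fin.tail m))
    have hD : ∀ z ∈ U, ContDiffAt ℝ ∞ (iteratedFDeriv ℝ i f) z := fun z hz =>
      (hsmooth z hz).iteratedFDeriv_right le_rfl
    have hws : ContDiffOn ℝ ∞ w U := fun z hz => (q.contDiff.contDiffAt.comp z
      ((ContinuousMultilinearMap.apply ℝ (fun _ : Fin i => E) F
        (Fin.tail m)).contDiff.contDiffAt.comp z (hD z hz))).contDiffWithinAt
    obtain ⟨W, φ, hW, hxφ, hφU, hφw, hφs⟩ := exists_chart hU hws hx.1.1 (by
      intro h0
      have h := congrArg (fun A : E →L[ℝ] ℝ => A (m 0)) h0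
      have hdi := (hD x hx.1.1).differentiableAt (by simp)
      have hc : HasFDerivAt w (q.comp (fderiv ℝ (fun z => iteratedFDeriv ℝ i f z (Fin.tail m)) x))
          x := q.hasFDerivAt.comp x
        (hdi.hasFDerivAt.continuousMultilinear_apply_const
          (Fin.tail m)).differentiableAt.hasFDerivAt
      rw [hc.fderiv] at h
      simp only [ContinuousLinearMap.comp_apply, zero_apply,
        fderiv_continuousMultilinear_apply_const_apply hdi] at h
      rw [← iteratedFDeriv_succ_apply_left, hq] at h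
      exact one_ne_zero h)
    refine ⟨φ.source, φ.open_source.mem_nhds hxφ, measure_mono_null ?_
      (ih _ (hd ▸ hW) (E := W) rfl μ (f := fun v => f (φ.symm (0, v)))
        (U := Prod.mk (0 : ℝ) ⁻¹' φ.target)
        (φ.open_target.preimage (continuous_const.prodMk continuous_id))
        ((hf.comp hφs fun y hy => hφU (φ.map_target hy)).comp
          (contDiff_const.prodMk contDiff_id).contDiffOn fun _ hv => hv))⟩
    rintro _ ⟨z, ⟨⟨hzc, hz1, hz2, -⟩, hzs⟩, rfl⟩
    have hw0 : w z = 0 := by simp [w, hz2]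
    have hφz : ((0 : ℝ), (φ z).2) = φ z := by rw [← hw0, ← hφw z hzs]
    have hsymm : φ.symm ((0 : ℝ), (φ z).2) = z := by rw [hφz]; exact φ.left_inv hzs
    have hmem : ((0 : ℝ), (φ z).2) ∈ φ.target := hφz ▸ φ.map_source hzs
    refine ⟨(φ z).2, ⟨hmem, fun hsurj => ?_⟩, congrArg f hsymm⟩
    have hds : DifferentiableAt ℝ φ.symm ((0 : ℝ), (φ z).2) :=
      (hφs.contDiffAt (φ.open_target.mem_nhds hmem)).differentiableAt (by simp)
    have hdf : HasFDerivAt f (0 : E →L[ℝ] F) (φ.symm ((0 : ℝ), (φ z).2)) := by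
      rw [hsymm, ← hz1]
      exact ((hsmooth z hzc.1).differentiableAt (by simp)).hasFDerivAt
    have hg := (hdf.comp ((0 : ℝ), (φ z).2) hds.hasFDerivAt).comp (φ z).2
      (hasFDerivAt_prodMk_right (𝕜 := ℝ) (0 : ℝ) (φ z).2)
    have hg0 : fderiv ℝ (fun v => f (φ.symm ((0 : ℝ), v))) (φ z).2 = 0 :=
      (hg.congr_fderiv (by simp)).fderiv
    rw [hg0] at hsurj
    obtain ⟨y, hy⟩ := exists_ne (0 : F)
    obtain ⟨v, hv⟩ := hsurj y
    exact hy (by simpa using hv.symm)
  -- the flat points
  refine measure_mono_null ?_ (measure_union_null (measure_union_null hA (measure_iUnion_null hB))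
    (image_flat_null μ hU hf))
  rintro _ ⟨x, hx, rfl⟩
  by_cases h1 : fderiv ℝ f x = 0
  swap
  · exact Or.inl (Or.inl ⟨x, ⟨hx, h1⟩, rfl⟩)
  by_cases hflat : ∀ j, 1 ≤ j → j ≤ finrank ℝ E → iteratedFDeriv ℝ j f x = 0
  · exact Or.inr ⟨x, ⟨hx.1, hflat⟩, rfl⟩
  classical
  simp only [not_forall] at hflat
  obtain ⟨j, hj1, -, hj⟩ := hflat
  have hex : ∃ j, 1 ≤ j ∧ iteratedFDeriv ℝ j f x ≠ 0 := ⟨j, hj1, hj⟩
  obtain ⟨hk1, hk⟩ := Nat.find_spec hex
  have hk2 : Nat.find hex ≠ 1 := fun e => hk (by
    rw [e, ← norm_eq_zero, norm_iteratedFDeriv_one, h1, norm_zero])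
  obtain ⟨i, hi⟩ := Nat.exists_eq_add_of_le (show 2 ≤ Nat.find hex by omega)
  have hlow : iteratedFDeriv ℝ (i + 1) f x = 0 := by
    by_contra hne
    exact Nat.find_min hex (show i + 1 < Nat.find hex by omega) ⟨by omega, hne⟩
  refine Or.inl (Or.inr (mem_iUnion.2 ⟨i + 1, x, ⟨hx, h1, hlow, ?_⟩, rfl⟩))
  rwa [show i + 1 + 1 = Nat.find hex by omega]

/-- **Regular values are dense.** -/
theorem dense_regularValues {E F : Type*} [NormedAddCommGroup E] [NormedSpace ℝ E]
    [FiniteDimensional ℝ E] [NormedAddCommGroup F] [NormedSpace ℝ F] [FiniteDimensional ℝ F]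
    {f : E → F} {U : Set E} (hU : IsOpen U) (hf : ContDiffOn ℝ ∞ f U) :
    Dense {y : F | ∀ x ∈ U, f x = y → Function.Surjective (fderiv ℝ f x)} := by
  borelize F
  refine (Measure.dense_of_ae (μ := (Measure.addHaar : Measure F))
    (p := fun y => y ∉ f '' crit f U) ?_).mono fun y hy x hx hxy => ?_
  · exact measure_eq_zero_iff_ae_notMem.1 (image_crit_null _ rfl _ hU hf)
  · by_contra hns
    exact hy ⟨x, ⟨hx, hns⟩, hxy⟩

end FA.MorseSard

end
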