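import Mathlib.Analysis.Calculus.InverseFunctionTheorem.ContDiff
import Mathlib.Analysis.LocallyConvex.SeparatingDual
import Mathlib.Analysis.Normed.Module.FiniteDimension
import Mathlib.Analysis.Normed.Operator.BoundedLinearMaps
import Mathlib.MeasureTheory.Measure.Haar.Unique
import Mathlib.MeasureTheory.Measure.Hausdorff
import Mathlib.Topology.MetricSpace.HausdorffDimension
import Mathlib.MeasureTheory.Measure.OpenPos

/-!
# Charts and flat points for the theorem of Morse and Sard

A function with nonzero differential is a coordinate of a chart; where the derivatives up to the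
dimension of the source vanish the map is Hölder of exponent above that dimension.
-/

set_option autoImplicit false

noncomputable section

open Set Filter Topology MeasureTheory Module
open scoped ContDiff NNReal ENNReal

namespace FA.MorseSard

variable {E : Type*} [NormedAddCommGroup E] [NormedSpace ℝ E] [FiniteDimensional ℝ E]
  {F : Type*} [NormedAddCommGroup F] [NormedSpace ℝ F] [FiniteDimensional ℝ F]

/-- The critical points. -/
def crit (f : E → F) (U : Set E) : Set E := {x ∈ U | ¬ Function.Surjective (fderiv ℝ f x)}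

omit [FiniteDimensional ℝ E] in
theorem isOpen_surjective : IsOpen {A : E →L[ℝ] F | Function.Surjective A} := by
  refine isOpen_iff_mem_nhds.2 fun A hA => ?_
  obtain ⟨g, hg⟩ := (A : E →ₗ[ℝ] F).exists_rightInverse_of_surjective
    (LinearMap.range_eq_top.2 hA)
  set R : F →L[ℝ] E := LinearMap.toContinuousLinearMap g
  have hc : Continuous fun B : E →L[ℝ] F => B.comp R :=
    continuous_id.clm_comp continuous_const
  have hone : A.comp R = 1 :=
    ContinuousLinearMap.ext fun y => LinearMap.congr_fun hg y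
  filter_upwards [(Units.isOpen.preimage hc).mem_nhds (show IsUnit (A.comp R) by
    rw [hone]; exact isUnit_one)] with B hB y
  obtain ⟨u, hu⟩ := (hB : IsUnit (B.comp R)).exists_right_inv
  exact ⟨R (u y), congrFun (congrArg DFunLike.coe hu) y⟩

omit [FiniteDimensional ℝ E] in
theorem isCompact_crit_inter {f : E → F} {U : Set E} (hU : IsOpen U) (hf : ContDiffOn ℝ ∞ f U)
    {K : Set E} (hK : IsCompact K) (hKU : K ⊆ U) : IsCompact (crit f U ∩ K) := by
  have h : IsClosed (K ∩ fderiv ℝ f ⁻¹' {A | Function.Surjective A}ᶜ) :=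
    ((hf.continuousOn_fderiv_of_isOpen hU (by simp)).mono hKU).preimage_isClosed_of_isClosed
      hK.isClosed isOpen_surjective.isClosed_compl
  convert hK.of_isClosed_subset h inter_subset_left using 1
  ext z
  exact ⟨fun ⟨⟨_, hz⟩, hzK⟩ => ⟨hzK, hz⟩, fun ⟨hzK, hz⟩ => ⟨⟨hKU hzK, hz⟩, hzK⟩⟩

/-- Null locally implies null. -/
theorem image_null_of_local {X Y : Type*} [TopologicalSpace X] [SecondCountableTopology X]
    [MeasurableSpace Y] {μ : Measure Y} {f : X → Y} {s : Set X}
    (h : ∀ x ∈ s, ∃ t ∈ 𝓝 x, μ (f '' (s ∩ t)) = 0) : μ (f '' s) = 0 := by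
  choose! t ht h0 using h
  obtain ⟨c, hcs, hc, hcover⟩ :=
    TopologicalSpace.countable_cover_nhdsWithin (f := t) fun x hx =>
    mem_nhdsWithin_of_mem_nhds (ht x hx)
  refine measure_mono_null ?_ ((measure_biUnion_null_iff hc).2 fun x hx => h0 x (hcs hx))
  rintro _ ⟨x, hx, rfl⟩
  obtain ⟨y, hy, hxy⟩ := mem_iUnion₂.1 (hcover hx)
  exact mem_iUnion₂.2 ⟨y, hy, mem_image_of_mem f ⟨hx, hxy⟩⟩

/-- **A chart with a given first coordinate.** -/
theorem exists_chart {U : Set E} (hU : IsOpen U) {w : E → ℝ} (hw : ContDiffOn ℝ ∞ w U)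
    {x : E} (hx : x ∈ U) (hne : fderiv ℝ w x ≠ 0) :
    ∃ (W : Submodule ℝ E) (φ : OpenPartialHomeomorph E (ℝ × W)), finrank ℝ W < finrank ℝ E ∧
      x ∈ φ.source ∧ φ.source ⊆ U ∧ (∀ z ∈ φ.source, (φ z).1 = w z) ∧
      ContDiffOn ℝ ∞ φ.symm φ.target := by
  set L := fderiv ℝ w x
  obtain ⟨v, hv⟩ : ∃ v, L v ≠ 0 := by
    by_contra hc
    simp only [not_exists, not_not] at hc
    exact hne (ContinuousLinearMap.ext fun v => by simp [hc v])
  set v₀ := (L v)⁻¹ • v with hv₀
  have hLv : L v₀ = 1 := by rw [hv₀, map_smul, smul_eq_mul, inv_mul_cancel₀ hv]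
  set W : Submodule ℝ E := LinearMap.ker (L : E →ₗ[ℝ] ℝ)
  let π : E →L[ℝ] W := LinearMap.toContinuousLinearMap
    (LinearMap.codRestrict W (LinearMap.id - (L : E →ₗ[ℝ] ℝ).smulRight v₀) fun z => by
      simp [W, hLv])
  have hπ : ∀ z, (π z : E) = z - L z • v₀ := fun z => rfl
  let e : E ≃L[ℝ] ℝ × W := LinearEquiv.toContinuousLinearEquiv
    { toLinearMap := (L.prod π : E →L[ℝ] ℝ × W)
      invFun := fun y => (y.2 : E) + y.1 • v₀
      left_inv := fun z => by
        show (π z : E) + L z • v₀ = z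
        rw [hπ, sub_add_cancel]
      right_inv := fun y => by
        have h0 : L (y.2 : E) = 0 := LinearMap.mem_ker.1 y.2.2
        refine Prod.ext ?_ (Subtype.ext ?_)
        · show L ((y.2 : E) + y.1 • v₀) = y.1
          simp [h0, hLv]
        · show ((π ((y.2 : E) + y.1 • v₀)) : E) = y.2
          simp [hπ, h0, hLv] }
  set h : E → ℝ × W := fun z => (w z, π z)
  have hh : ∀ z ∈ U, ContDiffAt ℝ ∞ h z := fun z hz =>
    (hw.contDiffAt (hU.mem_nhds hz)).prodMk π.contDiff.contDiffAt
  have hd : HasFDerivAt h (e : E →L[ℝ] ℝ × W) x :=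
    ((hw.contDiffAt (hU.mem_nhds hx)).differentiableAt (by simp)).hasFDerivAt.prodMk π.hasFDerivAt
  set V := U ∩ fderiv ℝ h ⁻¹' range ((↑) : (E ≃L[ℝ] ℝ × W) → E →L[ℝ] ℝ × W)
  have hV : IsOpen V :=
    (ContDiffOn.continuousOn_fderiv_of_isOpen (n := ∞) (fun z hz => (hh z hz).contDiffWithinAt) hU
      (by simp)).isOpen_inter_preimage hU ContinuousLinearEquiv.isOpen
  refine ⟨W, ((hh x hx).toOpenPartialHomeomorph h hd (by simp)).restrOpen V hV, ?_,
    ⟨(hh x hx).mem_toOpenPartialHomeomorph_source hd (by simp), hx, e, hd.fderiv.symm⟩,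
    fun z hz => hz.2.1, fun z _ => rfl, fun y hy => ?_⟩
  · refine Submodule.finrank_lt fun htop => hv ?_
    exact LinearMap.mem_ker.1 (show v ∈ W from htop ▸ Submodule.mem_top)
  · set φ := ((hh x hx).toOpenPartialHomeomorph h hd (by simp)).restrOpen V hV
    have hz : φ.symm y ∈ V := (φ.map_target hy).2
    obtain ⟨e', he'⟩ := hz.2
    refine (φ.contDiffAt_symm (f₀' := e') hy ?_ (hh _ hz.1)).contDiffWithinAt
    rw [he']
    exact ((hh _ hz.1).differentiableAt (by simp)).hasFDerivAt

/-- **Flat points**: their image is null. -/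
theorem image_flat_null [Nontrivial F] [MeasurableSpace F] [BorelSpace F] (μ : Measure F)
    [μ.IsAddHaarMeasure] {f : E → F} {U : Set E} (hU : IsOpen U) (hf : ContDiffOn ℝ ∞ f U) :
    μ (f '' {x ∈ U | ∀ j, 1 ≤ j → j ≤ finrank ℝ E → iteratedFDeriv ℝ j f x = 0}) = 0 := by
  set d := finrank ℝ E
  refine image_null_of_local fun x hx => ?_
  obtain ⟨ε, hε, hball⟩ := Metric.isOpen_iff.1 hU x hx.1
  set B := Metric.closedBall x (ε / 2)
  have hBU : B ⊆ U := (Metric.closedBall_subset_ball (half_lt_self hε)).trans hball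
  refine ⟨B, Metric.closedBall_mem_nhds x (half_pos hε), ?_⟩
  have hsmooth : ∀ j : ℕ, ∀ z ∈ U, ContDiffAt ℝ ∞ (iteratedFDeriv ℝ j f) z := fun j z hz =>
    (hf.contDiffAt (hU.mem_nhds hz)).iteratedFDeriv_right le_rfl
  obtain ⟨M, hM⟩ := ((isCompact_closedBall x (ε / 2)).image_of_continuousOn fun z hz =>
    (hsmooth (d + 1) z (hBU hz)).continuousAt.continuousWithinAt).isBounded.exists_norm_le
  set s := {x ∈ U | ∀ j, 1 ≤ j → j ≤ d → iteratedFDeriv ℝ j f x = 0} ∩ B
  have hM0 : 0 ≤ M := (norm_nonneg _).trans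
    (hM _ (mem_image_of_mem _ (Metric.mem_closedBall_self (half_pos hε).le)))
  have hold : HolderOnWith M.toNNReal ((d + 1 : ℕ) : ℝ≥0) f s := by
    intro a ha y hy
    set r := ‖y - a‖
    set T := Metric.closedBall a r ∩ B
    have hTc : Convex ℝ T := (convex_closedBall a r).inter (convex_closedBall x _)
    have haT : a ∈ T := ⟨Metric.mem_closedBall_self (norm_nonneg _), ha.2⟩
    have hyT : y ∈ T := ⟨mem_closedBall_iff_norm.2 le_rfl, hy.2⟩
    have key : ∀ i ≤ d, ∀ z ∈ T, ‖iteratedFDeriv ℝ (d + 1 - i) f z‖ ≤ M * r ^ i := by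
      intro i
      induction i with
      | zero => intro _ z hz; simpa using hM _ (mem_image_of_mem _ hz.2)
      | succ i ih =>
        intro hi z hz
        have h := hTc.norm_image_sub_le_of_norm_fderiv_le
          (f := iteratedFDeriv ℝ (d + 1 - (i + 1)) f) (C := M * r ^ i)
          (fun u hu => (hsmooth _ u (hBU hu.2)).differentiableAt (by simp))
          (fun u hu => by
            rw [norm_fderiv_iteratedFDeriv, show d + 1 - (i + 1) + 1 = d + 1 - i by omega]
            exact ih (by omega) u hu) haT hz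
        rw [ha.1.2 _ (by omega) (by omega), sub_zero] at h
        rw [pow_succ, ← mul_assoc]
        exact h.trans (mul_le_mul_of_nonneg_left (mem_closedBall_iff_norm.1 hz.1) (by positivity))
    have h := hTc.norm_image_sub_le_of_norm_fderiv_le (f := f) (C := M * r ^ d)
      (fun u hu => (hf.contDiffAt (hU.mem_nhds (hBU hu.2))).differentiableAt (by simp))
      (fun u hu => by
        have h1 := key d le_rfl u hu
        rwa [show d + 1 - d = 1 by omega, norm_iteratedFDeriv_one] at h1) haT hyT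
    rw [edist_dist, edist_dist, dist_eq_norm', dist_eq_norm' a y,
      ENNReal.ofReal_rpow_of_nonneg (norm_nonneg _) (NNReal.coe_nonneg _), NNReal.coe_natCast,
      Real.rpow_natCast, ← ENNReal.ofReal_coe_nnreal, Real.coe_toNNReal _ hM0,
      ← ENNReal.ofReal_mul hM0]
    refine ENNReal.ofReal_le_ofReal (h.trans (le_of_eq ?_))
    rw [mul_assoc, ← pow_succ]
  have hdim : dimH (f '' s) < ((finrank ℝ F : ℕ) : ℝ≥0) := by
    calc dimH (f '' s) ≤ dimH s / ((d + 1 : ℕ) : ℝ≥0) := hold.dimH_image_le (by positivity)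
      _ ≤ (d : ℝ≥0∞) / ((d + 1 : ℕ) : ℝ≥0) := by
        refine ENNReal.div_le_div_right ?_ _
        exact (dimH_mono (subset_univ s)).trans (Real.dimH_univ_eq_finrank E).le
      _ < 1 := by
        refine ENNReal.div_lt_of_lt_mul ?_
        rw [one_mul]
        push_cast
        exact_mod_cast Nat.lt_succ_self d
      _ ≤ _ := by exact_mod_cast Module.finrank_pos (R := ℝ) (M := F)
  have h0 := hausdorffMeasure_of_dimH_lt hdim
  exact Measure.absolutelyContinuous_isAddHaarMeasure μ
    (μH[(finrank ℝ F : ℝ)]) (by simpa using h0)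

end FA.MorseSard

end
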